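import Mathlib
import Fermat.Agent.CFT.Density.Galois
import Fermat.Prelude.Def_GaloisRep_Residual

/-!
# Weight one forms and Artin representations: interfaces

The statements proved separately and used in the proof that a weight one eigenform has an attached
two dimensional Artin representation: the density theorem of Chebotarev in logarithmic form, the
bound of Rankin, the bound on semisimple subgroups with few characteristic polynomials, and the
lifting of representations of order prime to the characteristic.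
-/

set_option autoImplicit false

noncomputable section

open Filter Topology CongruenceSubgroup
open scoped MatrixGroups

namespace Fermat.DS

local notation "ℚbar" => AlgebraicClosure ℚ
local notation "Γℚ" => (AlgebraicClosure ℚ ≃ₐ[ℚ] AlgebraicClosure ℚ)

section Density

variable (L : IntermediateField ℚ ℚbar) [Normal ℚ L]

open Classical in
/-- `1` at the primes with a Frobenius element restricting into `C`, else `0`. -/
def frobInd (C : Set (L ≃ₐ[ℚ] L)) (q : Nat.Primes) : ℝ :=
  if ∃ (A : ValuationSubring ℚbar) (σ : Γℚ), A.LiesOverPrime (q : ℕ) ∧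
      A.IsFrobeniusAt σ (q : ℕ) ∧ AlgEquiv.restrictNormalHom L σ ∈ C
  then 1 else 0

end Density

/-- **Chebotarev's density theorem**, logarithmic form: the primes with Frobenius in a set stable
under conjugation have at least its proportion. -/
def ChebStatement : Prop :=
  ∀ (L : IntermediateField ℚ ℚbar) [FiniteDimensional ℚ L] [Normal ℚ L] (C : Set (L ≃ₐ[ℚ] L)),
    (∀ g, ∀ x ∈ C, g * x * g⁻¹ ∈ C) →
    ∀ c : ℝ, c < (Nat.card C : ℝ) / (Nat.card (L ≃ₐ[ℚ] L) : ℝ) →
      ∀ᶠ s in 𝓝[>] (1 : ℝ),
        c * (-Real.log (s - 1)) ≤ Fermat.CFT.primeSum (frobInd L C) s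

/-- The Hecke relations of a normalised weight one form with character `ε`. -/
structure IsWeightOneEigen {N : ℕ} [NeZero N] (ε : DirichletCharacter ℂ N)
    (f : CuspForm (Gamma1 N) 1) : Prop where
  /-- The first coefficient is one. -/
  one : ModularFormClass.qCoeff f 1 = 1
  /-- The Hecke recursion for the coefficients at every prime not dividing the level. -/
  hecke : ∀ p : ℕ, p.Prime → ¬ p ∣ N → ∀ n : ℕ,
    ModularFormClass.qCoeff f (p * n) +
        ε (p : ZMod N) * (if p ∣ n then ModularFormClass.qCoeff f (n / p) else 0) =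
      ModularFormClass.qCoeff f p * ModularFormClass.qCoeff f n

/-- **Rankin's bound**: `∑ |a_p|² p^{-s} ≤ log (1/(s-1)) + O(1)`. -/
def RankinStatement : Prop :=
  ∀ (N : ℕ) [NeZero N] (ε : DirichletCharacter ℂ N) (f : CuspForm (Gamma1 N) 1),
    IsWeightOneEigen ε f →
    ∃ B : ℝ, ∀ s : ℝ, 1 < s → s < 2 → ∀ P : Finset Nat.Primes, (∀ p ∈ P, ¬ (p : ℕ) ∣ N) →
      ∑ p ∈ P, ‖ModularFormClass.qCoeff f (p : ℕ)‖ ^ 2 * ((p : ℕ) : ℝ) ^ (-s) ≤
        -Real.log (s - 1) + B

/-- A group of matrices acting semisimply: an invariant line has an invariant complement. -/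
def IsSS {k : Type*} [Field k] (G : Subgroup (GL (Fin 2) k)) : Prop :=
  ∀ v : Fin 2 → k, v ≠ 0 →
    (∀ g ∈ G, ∃ c : k, (g : Matrix (Fin 2) (Fin 2) k).mulVec v = c • v) →
    ∃ w : Fin 2 → k, (∀ c : k, w ≠ c • v) ∧
      ∀ g ∈ G, ∃ c : k, (g : Matrix (Fin 2) (Fin 2) k).mulVec w = c • w

/-- **Semisimple groups with few characteristic polynomials are bounded**, for characteristic
polynomials over the prime field. -/
def SmallImageStatement : Prop :=
  ∀ M : ℕ, ∃ A : ℕ, ∀ (l : ℕ) [Fact l.Prime]
    (G : Subgroup (GL (Fin 2) (AlgebraicClosure (ZMod l)))), Finite G → IsSS G →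
    (∀ g ∈ G, ∃ a d : ZMod l,
      (g : Matrix (Fin 2) (Fin 2) (AlgebraicClosure (ZMod l))).trace = algebraMap _ _ a ∧
      (g : Matrix (Fin 2) (Fin 2) (AlgebraicClosure (ZMod l))).det = algebraMap _ _ d) →
    ∀ S : Finset (AlgebraicClosure (ZMod l) × AlgebraicClosure (ZMod l)), S.card ≤ M →
      3 * Nat.card G ≤ 4 * Nat.card {g : G //
        ((g.1 : Matrix (Fin 2) (Fin 2) (AlgebraicClosure (ZMod l))).trace,
          (g.1 : Matrix (Fin 2) (Fin 2) (AlgebraicClosure (ZMod l))).det) ∈ S} →
      Nat.card G ≤ A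

/-- **Lifting of representations of order prime to the characteristic.** -/
def LiftStatement : Prop :=
  ∀ (l : ℕ) [Fact l.Prime],
    ∃ red : integralClosure ℤ ℂ →+* AlgebraicClosure (ZMod l),
      ∀ (G : Subgroup (GL (Fin 2) (AlgebraicClosure (ZMod l)))), Finite G → ¬ l ∣ Nat.card G →
        ∃ θ : G →* GL (Fin 2) ℂ, ∀ g : G, ∃ t e : integralClosure ℤ ℂ,
          (t : ℂ) = (θ g : Matrix (Fin 2) (Fin 2) ℂ).trace ∧
          (e : ℂ) = (θ g : Matrix (Fin 2) (Fin 2) ℂ).det ∧
          red t = (g.1 : Matrix (Fin 2) (Fin 2) (AlgebraicClosure (ZMod l))).trace ∧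
          red e = (g.1 : Matrix (Fin 2) (Fin 2) (AlgebraicClosure (ZMod l))).det

end Fermat.DS

end
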