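import Mathlib
import Fermat.Prelude.Def_FLTPrelim_Modularity

/-!
# Interface: a weight one form of prime level congruent to one

`EisStatement` asserts such a form for every large prime, in terms of the reduction `RedEq`.
-/

set_option autoImplicit false

noncomputable section

open UpperHalfPlane CongruenceSubgroup
open scoped MatrixGroups ModularForm Manifold

namespace Fermat.DS

/-- `c` is a quotient `a / b` of algebraic integers with `red b ≠ 0`, and reduces to `t`. -/
def RedEq {l : ℕ} [Fact l.Prime] (red : integralClosure ℤ ℂ →+* AlgebraicClosure (ZMod l)) (c : ℂ)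
    (t : AlgebraicClosure (ZMod l)) : Prop :=
  ∃ a b : integralClosure ℤ ℂ, red b ≠ 0 ∧ c * (b : ℂ) = a ∧ red a = t * red b

/-- For all large primes `l` a form of weight one and level `Γ₁(l)` congruent to one; slashing by
`γ ∈ Γ₀(l)` multiplies it modulo `l` by the inverse of the lower right entry. -/
def EisStatement : Prop :=
  ∃ B : ℕ, ∀ (l : ℕ) [Fact l.Prime], B < l →
    ∃ E : ℍ → ℂ, MDiff E ∧ (∀ γ ∈ Gamma1 l, E ∣[(1 : ℤ)] γ = E) ∧
      (∀ γ : SL(2, ℤ), IsBoundedAtImInfty (E ∣[(1 : ℤ)] γ)) ∧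
      ∀ (red : integralClosure ℤ ℂ →+* AlgebraicClosure (ZMod l)), ∀ γ ∈ Gamma0 l, ∀ n : ℕ,
        RedEq red (ModularFormClass.qCoeff (E ∣[(1 : ℤ)] γ) n)
          (if n = 0 then algebraMap (ZMod l) _ ((γ 1 1 : ℤ) : ZMod l)⁻¹ else 0)

end Fermat.DS

end
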